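/-
PROJECT P (S44), brick (G1): Brauer–Nesbitt for a representation whose image spans the whole
endomorphism algebra (Burnside's conclusion for an absolutely irreducible representation).

If `ρ₁ : G → End V₁` spans `End V₁`, `ρ₂ : G → End V₂` has the same dimension and the same traces,
then `ρ₁ ≅ ρ₂`.  No hypothesis on `ρ₂`, any dimension, any characteristic.

Mathlib only.
-/
import Mathlib.RepresentationTheory.Basic
import Mathlib.LinearAlgebra.Trace
import Mathlib.LinearAlgebra.Contraction
import Mathlib.LinearAlgebra.Dual.Lemmas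
import Mathlib.LinearAlgebra.Isomorphisms
import Mathlib.LinearAlgebra.FiniteDimensional.Lemmas
import Mathlib.LinearAlgebra.FreeModule.Finite.Matrix

set_option autoImplicit false

namespace Fermat.Agent.S44.Alg.BrauerNesbitt2

open Module

section TraceForm

variable {k : Type*} [Field k] {V : Type*} [AddCommGroup V] [Module k V] [FiniteDimensional k V]

/-- Trace of the rank-one endomorphism `w ↦ φ w • v`. -/
theorem trace_smulRight (φ : Module.Dual k V) (v : V) :
    LinearMap.trace k V (LinearMap.smulRight φ v) = φ v := by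
  have h : LinearMap.smulRight φ v = dualTensorHom k V V (φ ⊗ₜ[k] v) := by
    ext w
    simp [dualTensorHom_apply]
  rw [h, LinearMap.trace_eq_contract_apply]
  simp [contractLeft_apply]

/-- The trace form on `End V` is non-degenerate. -/
theorem eq_zero_of_trace_mul_eq_zero (f : Module.End k V)
    (h : ∀ e : Module.End k V, LinearMap.trace k V (f * e) = 0) : f = 0 := by
  ext v
  rw [LinearMap.zero_apply]
  rw [← Module.forall_dual_apply_eq_zero_iff k]
  intro φ
  have h1 := h (LinearMap.smulRight φ v)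
  have h2 : f * LinearMap.smulRight φ v = LinearMap.smulRight φ (f v) := by
    ext w
    simp [Module.End.mul_apply]
  rw [h2, trace_smulRight] at h1
  exact h1

end TraceForm

variable {G : Type*} [Monoid G] {k : Type*} [Field k]
  {V₁ V₂ : Type*} [AddCommGroup V₁] [Module k V₁] [FiniteDimensional k V₁]
  [AddCommGroup V₂] [Module k V₂] [FiniteDimensional k V₂]

omit [FiniteDimensional k V₁] in
/-- The span hypothesis says that `asAlgebraHom` is onto. -/
theorem asAlgebraHom_surjective (ρ₁ : Representation k G V₁)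
    (hspan : Submodule.span k (Set.range ρ₁) = ⊤) :
    Function.Surjective (Representation.asAlgebraHom ρ₁) := by
  intro e
  have he : e ∈ Submodule.span k (Set.range ρ₁) := by rw [hspan]; trivial
  have hle : Submodule.span k (Set.range ρ₁) ≤
      LinearMap.range (Representation.asAlgebraHom ρ₁).toLinearMap := by
    rw [Submodule.span_le]
    rintro _ ⟨g, rfl⟩
    exact ⟨MonoidAlgebra.of k G g, Representation.asAlgebraHom_of ρ₁ g⟩
  obtain ⟨a, ha⟩ := hle he
  exact ⟨a, ha⟩

omit [FiniteDimensional k V₁] [FiniteDimensional k V₂] in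
/-- Equal traces on `G` give equal trace functionals on `k[G]`. -/
theorem trace_asAlgebraHom_eq (ρ₁ : Representation k G V₁) (ρ₂ : Representation k G V₂)
    (htr : ∀ g, LinearMap.trace k V₁ (ρ₁ g) = LinearMap.trace k V₂ (ρ₂ g))
    (a : MonoidAlgebra k G) :
    LinearMap.trace k V₁ (Representation.asAlgebraHom ρ₁ a) =
      LinearMap.trace k V₂ (Representation.asAlgebraHom ρ₂ a) := by
  induction a using MonoidAlgebra.induction_on with
  | of g => simp only [Representation.asAlgebraHom_of]; exact htr g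
  | add a b ha hb => simp only [map_add, ha, hb]
  | smul r a ha => simp only [map_smul, ha]

omit [FiniteDimensional k V₂] in
/-- `ker ρ₂ ⊆ ker ρ₁` on the group algebra. -/
theorem asAlgebraHom_eq_zero_of (ρ₁ : Representation k G V₁) (ρ₂ : Representation k G V₂)
    (hspan : Submodule.span k (Set.range ρ₁) = ⊤)
    (htr : ∀ g, LinearMap.trace k V₁ (ρ₁ g) = LinearMap.trace k V₂ (ρ₂ g))
    (a : MonoidAlgebra k G) (ha : Representation.asAlgebraHom ρ₂ a = 0) :
    Representation.asAlgebraHom ρ₁ a = 0 := by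
  apply eq_zero_of_trace_mul_eq_zero
  intro e
  obtain ⟨b, rfl⟩ := asAlgebraHom_surjective ρ₁ hspan e
  rw [← map_mul, trace_asAlgebraHom_eq ρ₁ ρ₂ htr, map_mul, ha, zero_mul, map_zero]

/-- `ker ρ₁ ⊆ ker ρ₂` on the group algebra (dimension count). -/
theorem asAlgebraHom_eq_zero_of' (ρ₁ : Representation k G V₁) (ρ₂ : Representation k G V₂)
    (hspan : Submodule.span k (Set.range ρ₁) = ⊤)
    (hdim : finrank k V₂ = finrank k V₁)
    (htr : ∀ g, LinearMap.trace k V₁ (ρ₁ g) = LinearMap.trace k V₂ (ρ₂ g))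
    (a : MonoidAlgebra k G) (ha : Representation.asAlgebraHom ρ₁ a = 0) :
    Representation.asAlgebraHom ρ₂ a = 0 := by
  set f₁ : MonoidAlgebra k G →ₗ[k] Module.End k V₁ :=
    (Representation.asAlgebraHom ρ₁).toLinearMap with hf₁
  set f₂ : MonoidAlgebra k G →ₗ[k] Module.End k V₂ :=
    (Representation.asAlgebraHom ρ₂).toLinearMap with hf₂
  have hker : LinearMap.ker f₂ ≤ LinearMap.ker f₁ := by
    intro b hb
    rw [LinearMap.mem_ker] at hb ⊢
    exact asAlgebraHom_eq_zero_of ρ₁ ρ₂ hspan htr b hb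
  -- the induced map `range f₂ → End V₁`
  let π : LinearMap.range f₂ →ₗ[k] Module.End k V₁ :=
    ((LinearMap.ker f₂).liftQ f₁ hker) ∘ₗ (f₂.quotKerEquivRange.symm : _ →ₗ[k] _)
  have hπ : ∀ b : MonoidAlgebra k G, π ⟨f₂ b, LinearMap.mem_range_self f₂ b⟩ = f₁ b := by
    intro b
    have : f₂.quotKerEquivRange.symm ⟨f₂ b, LinearMap.mem_range_self f₂ b⟩ =
        Submodule.Quotient.mk b := by
      rw [LinearEquiv.symm_apply_eq]
      ext
      simp [LinearMap.quotKerEquivRange_apply_mk]
    simp only [π, LinearMap.coe_comp, LinearEquiv.coe_coe, Function.comp_apply, this,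
      Submodule.liftQ_apply]
  have hπs : Function.Surjective π := by
    intro e
    obtain ⟨b, hb⟩ := asAlgebraHom_surjective ρ₁ hspan e
    exact ⟨⟨f₂ b, LinearMap.mem_range_self f₂ b⟩, (hπ b).trans hb⟩
  have hfin : finrank k (LinearMap.range f₂) = finrank k (Module.End k V₁) := by
    apply le_antisymm
    · calc finrank k (LinearMap.range f₂) ≤ finrank k (Module.End k V₂) :=
            Submodule.finrank_le _
        _ = finrank k (Module.End k V₁) := by
            rw [Module.finrank_linearMap, Module.finrank_linearMap, hdim]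
    · exact LinearMap.finrank_le_finrank_of_surjective hπs
  have hπi : Function.Injective π :=
    (LinearMap.injective_iff_surjective_of_finrank_eq_finrank hfin).mpr hπs
  have h0 : π ⟨f₂ a, LinearMap.mem_range_self f₂ a⟩ = 0 := by
    rw [hπ a]; exact ha
  have h1 : (⟨f₂ a, LinearMap.mem_range_self f₂ a⟩ : LinearMap.range f₂) = 0 :=
    hπi (h0.trans (map_zero π).symm)
  exact congrArg Subtype.val h1

/-- **Brauer–Nesbitt for a spanning representation.**  If the image of `ρ₁` spans `End V₁`,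
`V₂` has the same dimension and `ρ₂` has the same traces, then `ρ₁ ≅ ρ₂`. -/
theorem exists_equiv_of_trace_eq (ρ₁ : Representation k G V₁) (ρ₂ : Representation k G V₂)
    (hspan : Submodule.span k (Set.range ρ₁) = ⊤)
    (hdim : finrank k V₂ = finrank k V₁)
    (htr : ∀ g, LinearMap.trace k V₁ (ρ₁ g) = LinearMap.trace k V₂ (ρ₂ g)) :
    ∃ T : V₁ ≃ₗ[k] V₂, ∀ g v, T (ρ₁ g v) = ρ₂ g (T v) := by
  classical
  by_cases hV : Subsingleton V₁
  · -- both spaces are zero
    have h0 : finrank k V₁ = 0 := Module.finrank_zero_of_subsingleton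
    have h2 : finrank k V₂ = 0 := hdim.trans h0
    have : Subsingleton V₂ := Module.finrank_zero_iff.mp h2
    refine ⟨LinearEquiv.ofFinrankEq V₁ V₂ hdim.symm, fun g v => Subsingleton.elim _ _⟩
  rw [not_subsingleton_iff_nontrivial] at hV
  obtain ⟨v₁, hv₁⟩ := exists_ne (0 : V₁)
  obtain ⟨φ, hφ⟩ := Module.Projective.exists_dual_eq_one k hv₁
  set A₁ := Representation.asAlgebraHom ρ₁ with hA₁
  set A₂ := Representation.asAlgebraHom ρ₂ with hA₂
  have hsurj := asAlgebraHom_surjective ρ₁ hspan
  have h12 : ∀ a, A₁ a = 0 → A₂ a = 0 := asAlgebraHom_eq_zero_of' ρ₁ ρ₂ hspan hdim htr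
  -- the rank-one idempotent `e` onto `k v₁`
  set e : Module.End k V₁ := LinearMap.smulRight φ v₁ with he
  have hev : e v₁ = v₁ := by simp [he, hφ]
  obtain ⟨ae, hae⟩ := hsurj e
  have hE2ne : A₂ ae ≠ 0 := by
    intro h
    have : A₁ ae = 0 := asAlgebraHom_eq_zero_of ρ₁ ρ₂ hspan htr ae h
    rw [hae] at this
    apply hv₁
    rw [← hev, this, LinearMap.zero_apply]
  obtain ⟨v₂', hv₂'⟩ : ∃ w, A₂ ae w ≠ 0 := by
    by_contra hcon
    exact hE2ne (LinearMap.ext fun w => by
      by_contra hw
      exact hcon ⟨w, hw⟩)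
  set v₂ : V₂ := A₂ ae v₂' with hv₂
  -- evaluation maps
  let ev₁ : MonoidAlgebra k G →ₗ[k] V₁ := (LinearMap.applyₗ v₁ : Module.End k V₁ →ₗ[k] V₁) ∘ₗ
    A₁.toLinearMap
  let ev₂ : MonoidAlgebra k G →ₗ[k] V₂ := (LinearMap.applyₗ v₂ : Module.End k V₂ →ₗ[k] V₂) ∘ₗ
    A₂.toLinearMap
  have hev₁ : ∀ a, ev₁ a = A₁ a v₁ := fun a => rfl
  have hev₂ : ∀ a, ev₂ a = A₂ a v₂ := fun a => rfl
  have hev₁s : Function.Surjective ev₁ := by
    intro w
    obtain ⟨a, ha⟩ := hsurj (LinearMap.smulRight φ w)
    refine ⟨a, ?_⟩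
    rw [hev₁, ha]
    simp [hφ]
  have hker : LinearMap.ker ev₁ ≤ LinearMap.ker ev₂ := by
    intro a ha
    rw [LinearMap.mem_ker, hev₁] at ha
    rw [LinearMap.mem_ker, hev₂]
    have h1 : A₁ (a * ae) = 0 := by
      rw [map_mul, hae]
      ext w
      simp [he, Module.End.mul_apply, ha]
    have h2 : A₂ (a * ae) = 0 := h12 _ h1
    rw [map_mul] at h2
    have := congrArg (fun f : Module.End k V₂ => f v₂') h2
    simpa [Module.End.mul_apply, hv₂] using this
  let T : V₁ →ₗ[k] V₂ := ((LinearMap.ker ev₁).liftQ ev₂ hker) ∘ₗ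
    ((ev₁.quotKerEquivOfSurjective hev₁s).symm : V₁ →ₗ[k] _)
  have hT : ∀ a : MonoidAlgebra k G, T (A₁ a v₁) = A₂ a v₂ := by
    intro a
    have : (ev₁.quotKerEquivOfSurjective hev₁s).symm (A₁ a v₁) = Submodule.Quotient.mk a := by
      rw [LinearEquiv.symm_apply_eq]
      simp [LinearMap.quotKerEquivOfSurjective_apply_mk, hev₁]
    simp only [T, LinearMap.coe_comp, LinearEquiv.coe_coe, Function.comp_apply, this,
      Submodule.liftQ_apply, hev₂]
  have hTA : ∀ (b : MonoidAlgebra k G) (w : V₁), T (A₁ b w) = A₂ b (T w) := by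
    intro b w
    obtain ⟨a, rfl⟩ := hev₁s w
    rw [hev₁, hT a, ← Module.End.mul_apply, ← map_mul, hT, map_mul, Module.End.mul_apply]
  have hTv : T v₁ = v₂ := by
    have := hT 1
    simpa using this
  have hv₂ne : v₂ ≠ 0 := hv₂'
  have hTinj : Function.Injective T := by
    rw [← LinearMap.ker_eq_bot, Submodule.eq_bot_iff]
    intro w hw
    rw [LinearMap.mem_ker] at hw
    by_contra hw0
    obtain ⟨ψ, hψ⟩ := Module.Projective.exists_dual_eq_one k hw0
    obtain ⟨b, hb⟩ := hsurj (LinearMap.smulRight ψ v₁)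
    have h1 : A₁ b w = v₁ := by rw [hb]; simp [hψ]
    have h2 : T v₁ = 0 := by rw [← h1, hTA, hw, map_zero]
    exact hv₂ne (hTv.symm.trans h2)
  refine ⟨LinearMap.linearEquivOfInjective T hTinj hdim.symm, fun g v => ?_⟩
  rw [LinearMap.linearEquivOfInjective_apply, LinearMap.linearEquivOfInjective_apply]
  have := hTA (MonoidAlgebra.of k G g) v
  rwa [hA₁, hA₂, Representation.asAlgebraHom_of, Representation.asAlgebraHom_of] at this

end Fermat.Agent.S44.Alg.BrauerNesbitt2
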