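/-
PROJECT P (S44), brick (G1) in the form wanted by TABLE P-0: Boston–Lenstra–Ribet.

`ρ : G → End V` two-dimensional with image spanning `End V`; `r : G → End X` a representation on a
non-zero space (any dimension) such that every `r g` satisfies the characteristic polynomial of
`ρ g`.  Then `V` embeds `G`-equivariantly into `X`.  (`2 ≠ 0` in `k`.)

Mathlib + `S44/Alg/BrauerNesbitt2` (two small lemmas).
-/
import Fermat.Agent.S44.Alg.BrauerNesbitt2
import Mathlib.LinearAlgebra.Determinant
import Mathlib.Tactic.Module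
import Mathlib.Tactic.NoncommRing

set_option autoImplicit false

namespace Fermat.Agent.S44.Alg.BLR

open Module Fermat.Agent.S44.Alg.BrauerNesbitt2

variable {k G V X : Type*} [Field k] [Group G] [AddCommGroup V] [Module k V]
  [AddCommGroup X] [Module k X]

/-- `d(h) r(h⁻¹) = t(h) - r(h)` from the Cayley–Hamilton relation at `h`. -/
theorem det_smul_inv (ρ : G →* Module.End k V) (r : G →* Module.End k X)
    (hCH : ∀ g, r g * r g - LinearMap.trace k V (ρ g) • r g +
      LinearMap.det (ρ g) • (1 : Module.End k X) = 0) (h : G) :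
    LinearMap.det (ρ h) • r h⁻¹ = LinearMap.trace k V (ρ h) • (1 : Module.End k X) - r h := by
  have key : (r h * r h - LinearMap.trace k V (ρ h) • r h +
      LinearMap.det (ρ h) • (1 : Module.End k X)) * r h⁻¹ = 0 := by rw [hCH h, zero_mul]
  have hinv : r h * r h⁻¹ = 1 := by rw [← map_mul, mul_inv_cancel, map_one]
  rw [add_mul, sub_mul, mul_assoc, hinv, mul_one, smul_mul_assoc, hinv, smul_mul_assoc,
    one_mul] at key
  have : LinearMap.det (ρ h) • r h⁻¹ =
      (r h - LinearMap.trace k V (ρ h) • (1 : Module.End k X) + LinearMap.det (ρ h) • r h⁻¹) -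
        (r h - LinearMap.trace k V (ρ h) • (1 : Module.End k X)) := by abel
  rw [this, key]
  abel

/-- The polarised Cayley–Hamilton identity on the group. -/
theorem polar_group (ρ : G →* Module.End k V) (r : G →* Module.End k X)
    (hCH : ∀ g, r g * r g - LinearMap.trace k V (ρ g) • r g +
      LinearMap.det (ρ g) • (1 : Module.End k X) = 0) (g h : G) :
    r g * r h + r h * r g =
      LinearMap.trace k V (ρ h) • r g + LinearMap.trace k V (ρ g) • r h -
        (LinearMap.trace k V (ρ g) * LinearMap.trace k V (ρ h) -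
          LinearMap.trace k V (ρ (g * h))) • (1 : Module.End k X) := by
  have hg := det_smul_inv ρ r hCH g
  have hh := det_smul_inv ρ r hCH h
  have hgh := det_smul_inv ρ r hCH (g * h)
  have hdet : LinearMap.det (ρ (g * h)) = LinearMap.det (ρ h) * LinearMap.det (ρ g) := by
    rw [map_mul, map_mul, mul_comm]
  have hrinv : r (g * h)⁻¹ = r h⁻¹ * r g⁻¹ := by rw [mul_inv_rev, map_mul]
  have hprod : (LinearMap.det (ρ h) • r h⁻¹) * (LinearMap.det (ρ g) • r g⁻¹) =
      LinearMap.det (ρ (g * h)) • r (g * h)⁻¹ := by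
    rw [smul_mul_smul_comm, hdet, hrinv]
  rw [hg, hh, hgh, map_mul r g h] at hprod
  -- expand
  have hexp : (LinearMap.trace k V (ρ h) • (1 : Module.End k X) - r h) *
      (LinearMap.trace k V (ρ g) • (1 : Module.End k X) - r g) =
      (LinearMap.trace k V (ρ h) * LinearMap.trace k V (ρ g)) • (1 : Module.End k X) -
        LinearMap.trace k V (ρ h) • r g - LinearMap.trace k V (ρ g) • r h + r h * r g := by
    rw [sub_mul, mul_sub, mul_sub, smul_mul_smul_comm, one_mul, smul_mul_assoc, one_mul,
      mul_smul_comm, mul_one]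
    abel
  rw [hexp] at hprod
  -- rearrange
  have : r g * r h + r h * r g =
      ((LinearMap.trace k V (ρ h) * LinearMap.trace k V (ρ g)) • (1 : Module.End k X) -
        LinearMap.trace k V (ρ h) • r g - LinearMap.trace k V (ρ g) • r h + r h * r g) -
      (LinearMap.trace k V (ρ (g * h)) • (1 : Module.End k X) - r g * r h) +
      (LinearMap.trace k V (ρ h) • r g + LinearMap.trace k V (ρ g) • r h -
        (LinearMap.trace k V (ρ g) * LinearMap.trace k V (ρ h) -
          LinearMap.trace k V (ρ (g * h))) • (1 : Module.End k X)) := by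
    rw [sub_smul, mul_comm (LinearMap.trace k V (ρ g))]
    abel
  rw [this, hprod, sub_self, zero_add]

/-- The polarised identity on the group algebra. -/
theorem polar_algebra (ρ : Representation k G V) (r : Representation k G X)
    (hCH : ∀ g, r g * r g - LinearMap.trace k V (ρ g) • r g +
      LinearMap.det (ρ g) • (1 : Module.End k X) = 0) (a b : MonoidAlgebra k G) :
    r.asAlgebraHom a * r.asAlgebraHom b + r.asAlgebraHom b * r.asAlgebraHom a =
      LinearMap.trace k V (ρ.asAlgebraHom b) • r.asAlgebraHom a +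
        LinearMap.trace k V (ρ.asAlgebraHom a) • r.asAlgebraHom b -
        (LinearMap.trace k V (ρ.asAlgebraHom a) * LinearMap.trace k V (ρ.asAlgebraHom b) -
          LinearMap.trace k V (ρ.asAlgebraHom (a * b))) • (1 : Module.End k X) := by
  induction a using MonoidAlgebra.induction_on with
  | of g =>
    induction b using MonoidAlgebra.induction_on with
    | of h =>
      rw [← map_mul (MonoidAlgebra.of k G) g h]
      simp only [Representation.asAlgebraHom_of]
      exact polar_group ρ r hCH g h
    | add b b' hb hb' =>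
      simp only [map_add, mul_add, add_mul, add_smul, smul_add] at hb hb' ⊢
      have : ∀ (x y x' y' : Module.End k X), x = y → x' = y' → x + x' = y + y' := by
        intro x y x' y' h h'; rw [h, h']
      have h3 := this _ _ _ _ hb hb'
      rw [show ∀ (p q s t : Module.End k X), p + q + (s + t) = p + s + (q + t) from
        fun p q s t => by abel] at h3
      rw [h3]
      module
    | smul c b hb =>
      simp only [map_smul, mul_smul_comm, smul_mul_assoc, smul_eq_mul] at hb ⊢
      rw [← smul_add, hb]
      module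
  | add a a' ha ha' =>
    simp only [map_add, mul_add, add_mul, add_smul, smul_add] at ha ha' ⊢
    have : ∀ (x y x' y' : Module.End k X), x = y → x' = y' → x + x' = y + y' := by
      intro x y x' y' h h'; rw [h, h']
    have h3 := this _ _ _ _ ha ha'
    rw [show ∀ (p q s t : Module.End k X), p + q + (s + t) = p + s + (q + t) from
      fun p q s t => by abel] at h3
    rw [h3]
    module
  | smul c a ha =>
    simp only [map_smul, mul_smul_comm, smul_mul_assoc, smul_eq_mul] at ha ⊢
    rw [← smul_add, ha]
    module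

/-- For `a` in the kernel of `ρ`: `r a r b + r b r a = τ(b) r a`. -/
theorem polar_ker (ρ : Representation k G V) (r : Representation k G X)
    (hCH : ∀ g, r g * r g - LinearMap.trace k V (ρ g) • r g +
      LinearMap.det (ρ g) • (1 : Module.End k X) = 0) (a b : MonoidAlgebra k G)
    (ha : ρ.asAlgebraHom a = 0) :
    r.asAlgebraHom a * r.asAlgebraHom b + r.asAlgebraHom b * r.asAlgebraHom a =
      LinearMap.trace k V (ρ.asAlgebraHom b) • r.asAlgebraHom a := by
  rw [polar_algebra ρ r hCH a b, map_mul, ha, zero_mul, map_zero, zero_smul, zero_mul, sub_zero,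
    zero_smul, sub_zero, add_zero]

/-- **The kernel of `ρ` on the group algebra kills `X`.** -/
theorem asAlgebraHom_eq_zero (h2 : (2 : k) ≠ 0) (hV : Module.finrank k V = 2)
    (ρ : Representation k G V) (hspan : Submodule.span k (Set.range ρ) = ⊤)
    (r : Representation k G X)
    (hCH : ∀ g, r g * r g - LinearMap.trace k V (ρ g) • r g +
      LinearMap.det (ρ g) • (1 : Module.End k X) = 0) (a : MonoidAlgebra k G)
    (ha : ρ.asAlgebraHom a = 0) : r.asAlgebraHom a = 0 := by
  classical
  have : FiniteDimensional k V := Module.finite_of_finrank_pos (by omega)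
  have hsurj := asAlgebraHom_surjective ρ hspan
  let b : Basis (Fin 2) k V := Module.finBasisOfFinrankEq k V hV
  -- matrix units
  set E12 : Module.End k V := LinearMap.smulRight (b.coord 1) (b 0) with hE12
  set E21 : Module.End k V := LinearMap.smulRight (b.coord 0) (b 1) with hE21
  obtain ⟨y, hy⟩ := hsurj E12
  obtain ⟨y', hy'⟩ := hsurj E21
  have ht12 : LinearMap.trace k V (ρ.asAlgebraHom y) = 0 := by
    rw [hy, hE12, trace_smulRight]; simp
  have ht21 : LinearMap.trace k V (ρ.asAlgebraHom y') = 0 := by
    rw [hy', hE21, trace_smulRight]; simp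
  have hE11 : E12 * E21 = LinearMap.smulRight (b.coord 0) (b 0) := by
    ext w
    simp [hE12, hE21, Module.End.mul_apply]
  set Y := y * y' with hY
  have hρY : ρ.asAlgebraHom Y = LinearMap.smulRight (b.coord 0) (b 0) := by
    rw [hY, map_mul, hy, hy', hE11]
  have htY : LinearMap.trace k V (ρ.asAlgebraHom Y) = 1 := by
    rw [hρY, trace_smulRight]; simp
  have htYY : LinearMap.trace k V (ρ.asAlgebraHom (Y * Y)) = 1 := by
    have : (LinearMap.smulRight (b.coord 0) (b 0) : Module.End k V) *
        LinearMap.smulRight (b.coord 0) (b 0) = LinearMap.smulRight (b.coord 0) (b 0) := by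
      ext w
      simp [Module.End.mul_apply]
    rw [map_mul, hρY, this, trace_smulRight]; simp
  set Ra := r.asAlgebraHom a with hRa
  set Ry := r.asAlgebraHom y with hRy
  set Ry' := r.asAlgebraHom y' with hRy'
  set RY := r.asAlgebraHom Y with hRY
  -- anticommutation with the lifts of `E12`, `E21`
  have hanti : Ra * Ry + Ry * Ra = 0 := by
    have := polar_ker ρ r hCH a y ha
    rwa [ht12, zero_smul] at this
  have hanti' : Ra * Ry' + Ry' * Ra = 0 := by
    have := polar_ker ρ r hCH a y' ha
    rwa [ht21, zero_smul] at this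
  have hRYmul : RY = Ry * Ry' := by rw [hRY, hY, map_mul]
  have hcomm : Ra * RY = RY * Ra := by
    have e1 : Ra * Ry = -(Ry * Ra) := eq_neg_of_add_eq_zero_left hanti
    have e2 : Ra * Ry' = -(Ry' * Ra) := eq_neg_of_add_eq_zero_left hanti'
    rw [hRYmul, ← mul_assoc, e1, neg_mul, mul_assoc, e2, mul_neg, neg_neg, mul_assoc]
  -- `2 Ra RY = Ra`
  have hQ : Ra * RY + RY * Ra = Ra := by
    have := polar_ker ρ r hCH a Y ha
    rwa [htY, one_smul] at this
  have h2a : (2 : k) • (Ra * RY) = Ra := by
    rw [two_smul]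
    nth_rewrite 2 [hcomm]
    exact hQ
  -- `RY` is idempotent
  have hidem : RY * RY = RY := by
    have := polar_algebra ρ r hCH Y Y
    rw [htY, htYY, one_smul, mul_one, sub_self, zero_smul, sub_zero] at this
    have h3 : (2 : k) • (RY * RY - RY) = 0 := by
      rw [two_smul]
      have : RY * RY - RY + (RY * RY - RY) = (RY * RY + RY * RY) - (RY + RY) := by abel
      rw [this]
      exact sub_eq_zero.2 ‹_›
    have := (smul_eq_zero.1 h3).resolve_left h2
    exact sub_eq_zero.1 this
  have hzero : Ra * RY = 0 := by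
    have h4 : Ra * RY = (2 : k) • (Ra * RY) := by
      calc Ra * RY = ((2 : k) • (Ra * RY)) * RY := by rw [h2a]
        _ = (2 : k) • (Ra * (RY * RY)) := by rw [smul_mul_assoc, mul_assoc]
        _ = (2 : k) • (Ra * RY) := by rw [hidem]
    have h5 : Ra * RY = Ra * RY + Ra * RY := by rwa [two_smul] at h4
    exact left_eq_add.1 h5
  rw [← h2a, hzero, smul_zero]

/-- **Boston–Lenstra–Ribet.**  `ρ` two-dimensional with image spanning `End V`, `r` a
representation on a non-zero space all of whose operators satisfy the characteristic polynomial of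
`ρ`: then `V` embeds equivariantly into `X`. -/
theorem exists_injective_of_cayleyHamilton [Nontrivial X] (h2 : (2 : k) ≠ 0)
    (hV : Module.finrank k V = 2) (ρ : G →* Module.End k V)
    (hspan : Submodule.span k (Set.range ρ) = ⊤) (r : G →* Module.End k X)
    (hCH : ∀ g, r g * r g - LinearMap.trace k V (ρ g) • r g +
      LinearMap.det (ρ g) • (1 : Module.End k X) = 0) :
    ∃ φ : V →ₗ[k] X, Function.Injective φ ∧ ∀ g v, φ (ρ g v) = r g (φ v) := by
  classical
  have : FiniteDimensional k V := Module.finite_of_finrank_pos (by omega)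
  have : Nontrivial V := Module.nontrivial_of_finrank_pos (R := k) (by omega)
  let ρ' : Representation k G V := ρ
  let r' : Representation k G X := r
  set A₁ := Representation.asAlgebraHom ρ' with hA₁
  set A₂ := Representation.asAlgebraHom r' with hA₂
  have hsurj : Function.Surjective A₁ := asAlgebraHom_surjective ρ' hspan
  have h12 : ∀ a, A₁ a = 0 → A₂ a = 0 := asAlgebraHom_eq_zero h2 hV ρ' hspan r' hCH
  let b : Basis (Fin 2) k V := Module.finBasisOfFinrankEq k V hV
  set v₁ : V := b 0 with hv₁
  set φ₁ : Module.Dual k V := b.coord 0 with hφ₁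
  have hφv : φ₁ v₁ = 1 := by simp [hφ₁, hv₁]
  have hv₁0 : v₁ ≠ 0 := b.ne_zero 0
  -- the rank-one idempotent `e` onto `k v₁` and a lift
  set e : Module.End k V := LinearMap.smulRight φ₁ v₁ with he
  obtain ⟨ae, hae⟩ := hsurj e
  -- `A₂ ae ≠ 0`: otherwise `1` would be killed
  have hE2ne : A₂ ae ≠ 0 := by
    intro h0
    -- lifts of `φ₁ ⊗ b i` and `b.coord i ⊗ v₁`
    choose bl hbl using fun i : Fin 2 => hsurj (LinearMap.smulRight φ₁ (b i))
    choose cl hcl using fun i : Fin 2 => hsurj (LinearMap.smulRight (b.coord i) v₁)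
    have hone : A₁ (1 - ∑ i : Fin 2, bl i * ae * cl i) = 0 := by
      rw [map_sub, map_one, map_sum, sub_eq_zero]
      ext w
      simp only [map_mul, hbl, hcl, hae, he, Module.End.one_apply, LinearMap.coe_sum,
        Finset.sum_apply, Module.End.mul_apply, LinearMap.smulRight_apply, map_smul, hφv,
        one_smul, Basis.coord_apply]
      exact (b.sum_repr w).symm
    have h1 := h12 _ hone
    rw [map_sub, map_one, map_sum] at h1
    have h3 : ∑ i : Fin 2, A₂ (bl i * ae * cl i) = 0 := by
      refine Finset.sum_eq_zero fun i _ => ?_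
      rw [map_mul, map_mul, h0, mul_zero, zero_mul]
    rw [h3, sub_zero] at h1
    obtain ⟨x, hx⟩ := exists_ne (0 : X)
    apply hx
    have := congrArg (fun f : Module.End k X => f x) h1
    simpa using this
  obtain ⟨x₂', hx₂'⟩ : ∃ w, A₂ ae w ≠ 0 := by
    by_contra hcon
    exact hE2ne (LinearMap.ext fun w => by
      by_contra hw
      exact hcon ⟨w, hw⟩)
  set x₂ : X := A₂ ae x₂' with hx₂
  -- evaluation maps
  let ev₁ : MonoidAlgebra k G →ₗ[k] V := (LinearMap.applyₗ v₁ : Module.End k V →ₗ[k] V) ∘ₗ
    A₁.toLinearMap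
  let ev₂ : MonoidAlgebra k G →ₗ[k] X := (LinearMap.applyₗ x₂ : Module.End k X →ₗ[k] X) ∘ₗ
    A₂.toLinearMap
  have hev₁ : ∀ a, ev₁ a = A₁ a v₁ := fun a => rfl
  have hev₂ : ∀ a, ev₂ a = A₂ a x₂ := fun a => rfl
  have hev₁s : Function.Surjective ev₁ := by
    intro w
    obtain ⟨a, ha⟩ := hsurj (LinearMap.smulRight φ₁ w)
    refine ⟨a, ?_⟩
    rw [hev₁, ha]
    simp [hφv]
  have hker : LinearMap.ker ev₁ ≤ LinearMap.ker ev₂ := by
    intro a ha
    rw [LinearMap.mem_ker, hev₁] at ha
    rw [LinearMap.mem_ker, hev₂]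
    have h1 : A₁ (a * ae) = 0 := by
      rw [map_mul, hae]
      ext w
      simp [he, Module.End.mul_apply, ha]
    have h2' : A₂ (a * ae) = 0 := h12 _ h1
    rw [map_mul] at h2'
    have := congrArg (fun f : Module.End k X => f x₂') h2'
    simpa [Module.End.mul_apply, hx₂] using this
  let T : V →ₗ[k] X := ((LinearMap.ker ev₁).liftQ ev₂ hker) ∘ₗ
    ((ev₁.quotKerEquivOfSurjective hev₁s).symm : V →ₗ[k] _)
  have hT : ∀ a : MonoidAlgebra k G, T (A₁ a v₁) = A₂ a x₂ := by
    intro a
    have : (ev₁.quotKerEquivOfSurjective hev₁s).symm (A₁ a v₁) = Submodule.Quotient.mk a := by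
      rw [LinearEquiv.symm_apply_eq]
      simp [LinearMap.quotKerEquivOfSurjective_apply_mk, hev₁]
    simp only [T, LinearMap.coe_comp, LinearEquiv.coe_coe, Function.comp_apply, this,
      Submodule.liftQ_apply, hev₂]
  have hTA : ∀ (c : MonoidAlgebra k G) (w : V), T (A₁ c w) = A₂ c (T w) := by
    intro c w
    obtain ⟨a, rfl⟩ := hev₁s w
    rw [hev₁, hT a, ← Module.End.mul_apply, ← map_mul, hT, map_mul, Module.End.mul_apply]
  have hTv : T v₁ = x₂ := by
    have := hT 1
    simpa using this
  have hTinj : Function.Injective T := by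
    rw [← LinearMap.ker_eq_bot, Submodule.eq_bot_iff]
    intro w hw
    rw [LinearMap.mem_ker] at hw
    by_contra hw0
    obtain ⟨ψ, hψ⟩ := Module.Projective.exists_dual_eq_one k hw0
    obtain ⟨c, hc⟩ := hsurj (LinearMap.smulRight ψ v₁)
    have h1 : A₁ c w = v₁ := by rw [hc]; simp [hψ]
    have h3 : T v₁ = 0 := by rw [← h1, hTA, hw, map_zero]
    exact hx₂' (hTv.symm.trans h3)
  refine ⟨T, hTinj, fun g v => ?_⟩
  have := hTA (MonoidAlgebra.of k G g) v
  rwa [hA₁, hA₂, Representation.asAlgebraHom_of, Representation.asAlgebraHom_of] at this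

/-- The same statement with the binders of the ENT page (#5266). -/
theorem exists_injective_equivariant (h2 : (2 : k) ≠ 0) (hV : Module.finrank k V = 2)
    (ρ : G →* Module.End k V) (hspan : Submodule.span k (Set.range ρ) = ⊤) [Nontrivial X]
    (r : G →* Module.End k X)
    (hCH : ∀ g, r g * r g - LinearMap.trace k V (ρ g) • r g +
      LinearMap.det (ρ g) • (1 : Module.End k X) = 0) :
    ∃ φ : V →ₗ[k] X, Function.Injective φ ∧ ∀ g v, φ (ρ g v) = r g (φ v) :=
  exists_injective_of_cayleyHamilton h2 hV ρ hspan r hCH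

end Fermat.Agent.S44.Alg.BLR
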