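/-
PROJECT P (S44), brick (G1'): Burnside in dimension two over an ARBITRARY field, from an
irreducible representation containing a non-scalar involution (complex conjugation, `p` odd):
the image spans the whole endomorphism algebra.  So `irreducible + odd ⟹ span = ⊤`
(= absolutely irreducible in the sense of main's `S53.Centralizer`).

Mathlib only.
-/
import Mathlib.LinearAlgebra.FiniteDimensional.Lemmas
import Mathlib.LinearAlgebra.FreeModule.Finite.Matrix
import Mathlib.LinearAlgebra.LinearIndependent.Lemmas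
import Mathlib.LinearAlgebra.Dimension.Constructions

set_option autoImplicit false

namespace Fermat.Agent.S44.Alg.BurnsideInvol

open Module

variable {k V G : Type*} [Field k] [AddCommGroup V] [Module k V] [Monoid G]

/-- The span of the image of a monoid homomorphism is closed under multiplication. -/
theorem mul_mem_span (ρ : G →* Module.End k V) {a b : Module.End k V}
    (ha : a ∈ Submodule.span k (Set.range ρ)) (hb : b ∈ Submodule.span k (Set.range ρ)) :
    a * b ∈ Submodule.span k (Set.range ρ) := by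
  set 𝒜 := Submodule.span k (Set.range ρ) with h𝒜
  induction ha using Submodule.span_induction with
  | mem x hx =>
    obtain ⟨g, rfl⟩ := hx
    induction hb using Submodule.span_induction with
    | mem y hy =>
      obtain ⟨g', rfl⟩ := hy
      rw [← map_mul]; exact Submodule.subset_span ⟨_, rfl⟩
    | zero => rw [mul_zero]; exact 𝒜.zero_mem
    | add y z _ _ hy hz => rw [mul_add]; exact 𝒜.add_mem hy hz
    | smul c y _ hy => rw [mul_smul_comm]; exact 𝒜.smul_mem c hy
  | zero => rw [zero_mul]; exact 𝒜.zero_mem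
  | add y z _ _ hy hz => rw [add_mul]; exact 𝒜.add_mem hy hz
  | smul c y _ hy => rw [smul_mul_assoc]; exact 𝒜.smul_mem c hy

theorem one_mem_span (ρ : G →* Module.End k V) :
    (1 : Module.End k V) ∈ Submodule.span k (Set.range ρ) :=
  Submodule.subset_span ⟨1, map_one ρ⟩

/-- Four "matrix units" relative to a pair of complementary idempotents are linearly
independent. -/
theorem linearIndependent_units {P Q A B : Module.End k V}
    (hP : P * P = P) (hQ : Q * Q = Q) (hPQ : P * Q = 0) (hQP : Q * P = 0)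
    (hP0 : P ≠ 0) (hQ0 : Q ≠ 0) (hA : Q * A * P = A) (hB : P * B * Q = B)
    (hA0 : A ≠ 0) (hB0 : B ≠ 0) :
    LinearIndependent k ![P, Q, A, B] := by
  rw [Fintype.linearIndependent_iff]
  intro c hc
  simp only [Fin.sum_univ_four, Matrix.cons_val_zero, Matrix.cons_val_one,
    Matrix.cons_val_two, Matrix.cons_val_three, Matrix.head_cons, Matrix.tail_cons] at hc
  -- useful products
  have hAP : A * P = A := by rw [← hA, mul_assoc, hP]
  have hQA : Q * A = A := by rw [← hA, ← mul_assoc, ← mul_assoc, hQ]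
  have hPA : P * A = 0 := by rw [← hQA, ← mul_assoc, hPQ, zero_mul]
  have hAQ : A * Q = 0 := by rw [← hAP, mul_assoc, hPQ, mul_zero]
  have hBQ : B * Q = B := by rw [← hB, mul_assoc, hQ]
  have hPB : P * B = B := by rw [← hB, ← mul_assoc, ← mul_assoc, hP]
  have hQB : Q * B = 0 := by rw [← hPB, ← mul_assoc, hQP, zero_mul]
  have hBP : B * P = 0 := by rw [← hBQ, mul_assoc, hQP, mul_zero]
  have h0 : c 0 = 0 := by
    have := congrArg (fun X => P * X * P) hc
    simp only [mul_add, add_mul, mul_smul_comm, smul_mul_assoc, hP, hPQ, hPA, hPB, hBP,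
      zero_mul, mul_zero, smul_zero, add_zero] at this
    exact (smul_eq_zero.mp this).resolve_right hP0
  have h1 : c 1 = 0 := by
    have := congrArg (fun X => Q * X * Q) hc
    simp only [mul_add, add_mul, mul_smul_comm, smul_mul_assoc, hQ, hQP, hQA, hAQ, hQB,
      zero_mul, mul_zero, smul_zero, add_zero, zero_add] at this
    exact (smul_eq_zero.mp this).resolve_right hQ0
  have h2 : c 2 = 0 := by
    have := congrArg (fun X => Q * X * P) hc
    simp only [mul_add, add_mul, mul_smul_comm, smul_mul_assoc, hQ, hQP, hQA, hAP, hQB,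
      zero_mul, mul_zero, smul_zero, add_zero, zero_add] at this
    exact (smul_eq_zero.mp this).resolve_right hA0
  have h3 : c 3 = 0 := by
    have := congrArg (fun X => P * X * Q) hc
    simp only [mul_add, add_mul, mul_smul_comm, smul_mul_assoc, hP, hPQ, hPA, hPB, hBQ,
      zero_mul, mul_zero, smul_zero, add_zero, zero_add] at this
    exact (smul_eq_zero.mp this).resolve_right hB0
  intro i
  fin_cases i <;> assumption

/-- **Burnside in dimension two from a non-scalar involution.**  `ρ` irreducible of dimension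
two, `ρ g₀` an involution different from `±1`, `2 ≠ 0`: the image of `ρ` spans `End V`. -/
theorem span_range_eq_top_of_involution (hV : Module.finrank k V = 2) (ρ : G →* Module.End k V)
    (hirr : ∀ W : Submodule k V, (∀ g, ∀ x ∈ W, ρ g x ∈ W) → W = ⊥ ∨ W = ⊤)
    (h2 : (2 : k) ≠ 0) (g₀ : G) (hsq : ρ g₀ * ρ g₀ = 1) (hne1 : ρ g₀ ≠ 1) (hne2 : ρ g₀ ≠ -1) :
    Submodule.span k (Set.range ρ) = ⊤ := by
  classical
  have : FiniteDimensional k V := Module.finite_of_finrank_pos (by omega)
  set 𝒜 : Submodule k (Module.End k V) := Submodule.span k (Set.range ρ) with h𝒜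
  set c : Module.End k V := ρ g₀ with hc
  have hc𝒜 : c ∈ 𝒜 := Submodule.subset_span ⟨g₀, rfl⟩
  have h1𝒜 : (1 : Module.End k V) ∈ 𝒜 := one_mem_span ρ
  set P : Module.End k V := (2 : k)⁻¹ • (1 + c) with hP
  set Q : Module.End k V := (2 : k)⁻¹ • (1 - c) with hQ
  have h22 : (2 : k)⁻¹ * (2 : k)⁻¹ * 2 = (2 : k)⁻¹ := by field_simp
  have hPP : P * P = P := by
    rw [hP, smul_mul_smul_comm]
    have : (1 + c) * (1 + c) = (2 : k) • (1 + c) := by
      rw [mul_add, add_mul, add_mul, hsq, one_mul, mul_one, one_mul, two_smul]; abel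
    rw [this, smul_smul, h22]
  have hQQ : Q * Q = Q := by
    rw [hQ, smul_mul_smul_comm]
    have : (1 - c) * (1 - c) = (2 : k) • (1 - c) := by
      rw [mul_sub, sub_mul, sub_mul, hsq, one_mul, mul_one, one_mul, two_smul]; abel
    rw [this, smul_smul, h22]
  have hPQ : P * Q = 0 := by
    rw [hP, hQ, smul_mul_smul_comm]
    have : (1 + c) * (1 - c) = 0 := by
      rw [mul_sub, add_mul, add_mul, hsq, one_mul, mul_one, one_mul]; abel
    rw [this, smul_zero]
  have hQP : Q * P = 0 := by
    rw [hP, hQ, smul_mul_smul_comm]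
    have : (1 - c) * (1 + c) = 0 := by
      rw [mul_add, sub_mul, sub_mul, hsq, one_mul, mul_one, one_mul]; abel
    rw [this, smul_zero]
  have hP0 : P ≠ 0 := by
    intro h
    rw [hP, smul_eq_zero] at h
    rcases h with h | h
    · exact h2 (inv_eq_zero.mp h)
    · exact hne2 (eq_neg_of_add_eq_zero_right h)
  have hQ0 : Q ≠ 0 := by
    intro h
    rw [hQ, smul_eq_zero] at h
    rcases h with h | h
    · exact h2 (inv_eq_zero.mp h)
    · exact hne1 (sub_eq_zero.mp h).symm
  have hP𝒜 : P ∈ 𝒜 := 𝒜.smul_mem _ (𝒜.add_mem h1𝒜 hc𝒜)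
  have hQ𝒜 : Q ∈ 𝒜 := 𝒜.smul_mem _ (𝒜.sub_mem h1𝒜 hc𝒜)
  have hPQ1 : P + Q = 1 := by
    rw [hP, hQ, ← smul_add]
    have : (1 + c) + (1 - c) = (2 : k) • (1 : Module.End k V) := by rw [two_smul]; abel
    rw [this, smul_smul, inv_mul_cancel₀ h2, one_smul]
  -- irreducibility produces the off-diagonal units
  have hoff : ∀ {E F : Module.End k V}, E * E = E → F * F = F → E * F = 0 → E + F = 1 → E ≠ 0 →
      F ≠ 0 → ∃ g, F * ρ g * E ≠ 0 := by
    intro E F hEE hFF hEF hEF1 hE0 hF0
    by_contra hcon
    have hcon' : ∀ g, F * ρ g * E = 0 := by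
      intro g
      by_contra h
      exact hcon ⟨g, h⟩
    -- the range of `E` is an invariant subspace
    have hinv : ∀ g, ∀ x ∈ LinearMap.range E, ρ g x ∈ LinearMap.range E := by
      rintro g _ ⟨y, rfl⟩
      refine ⟨ρ g (E y), ?_⟩
      have h1 : (E + F) (ρ g (E y)) = ρ g (E y) := by rw [hEF1]; rfl
      have h3 : F (ρ g (E y)) = 0 := by
        have := congrArg (fun X : Module.End k V => X y) (hcon' g)
        simpa [Module.End.mul_apply] using this
      rw [LinearMap.add_apply, h3, add_zero] at h1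
      exact h1
    rcases hirr _ hinv with h | h
    · apply hE0
      ext y
      have : E y ∈ LinearMap.range E := ⟨y, rfl⟩
      rw [h] at this
      simpa using this
    · apply hF0
      ext y
      have hy : y ∈ LinearMap.range E := by rw [h]; trivial
      obtain ⟨z, rfl⟩ := hy
      rw [← Module.End.mul_apply]
      have hFE : F * E = 0 := by
        have h1 : F * (E + F) = F := by rw [hEF1, mul_one]
        rw [mul_add, hFF] at h1
        exact add_eq_right.mp h1
      rw [hFE]; rfl
  obtain ⟨g, hg⟩ := hoff hPP hQQ hPQ hPQ1 hP0 hQ0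
  obtain ⟨g', hg'⟩ := hoff hQQ hPP hQP (by rw [add_comm]; exact hPQ1) hQ0 hP0
  set A : Module.End k V := Q * ρ g * P with hA
  set B : Module.End k V := P * ρ g' * Q with hB
  have hA𝒜 : A ∈ 𝒜 := mul_mem_span ρ (mul_mem_span ρ hQ𝒜 (Submodule.subset_span ⟨g, rfl⟩)) hP𝒜
  have hB𝒜 : B ∈ 𝒜 := mul_mem_span ρ (mul_mem_span ρ hP𝒜 (Submodule.subset_span ⟨g', rfl⟩)) hQ𝒜
  have hAA : Q * A * P = A := by
    rw [hA, ← mul_assoc, ← mul_assoc, hQQ, mul_assoc (Q * ρ g), hPP]
  have hBB : P * B * Q = B := by
    rw [hB, ← mul_assoc, ← mul_assoc, hPP, mul_assoc (P * ρ g'), hQQ]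
  have hli := linearIndependent_units hPP hQQ hPQ hQP hP0 hQ0 hAA hBB hg hg'
  -- dimension count
  have hsub : Submodule.span k (Set.range ![P, Q, A, B]) ≤ 𝒜 := by
    rw [Submodule.span_le]
    rintro _ ⟨i, rfl⟩
    fin_cases i
    · exact hP𝒜
    · exact hQ𝒜
    · exact hA𝒜
    · exact hB𝒜
  have hfr : finrank k (Submodule.span k (Set.range ![P, Q, A, B])) = 4 := by
    rw [finrank_span_eq_card hli]; rfl
  have hEnd : finrank k (Module.End k V) = 4 := by
    rw [Module.finrank_linearMap, hV]
  have htop : Submodule.span k (Set.range ![P, Q, A, B]) = ⊤ :=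
    Submodule.eq_top_of_finrank_eq (hfr.trans hEnd.symm)
  exact top_le_iff.mp (htop ▸ hsub)

end Fermat.Agent.S44.Alg.BurnsideInvol
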