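import Mathlib

/-!
# PROJECT P (S44), brick (X5'): the Kummer / finite-field lifting lemma

`J` a `p`-divisible abelian group with finite `p`-torsion, `red : J →+ B` a homomorphism, `S` a
commutative ring acting on `J` and preserving `ker red`, `σ` an `S`-linear endomorphism of `J`
(a power of a Frobenius element).  Let `ybar ∈ B` be non-zero, killed by `p`, and an eigenvector of
the `τ i ∈ S` with integer eigenvalues `a i` IN THE RELATION FORM `h2` (for every `y` whose
reduction is an integer multiple of `ybar`, `red (τ i • y - a i • y) = 0`).  Assume that `ybar` is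
the reduction of a point fixed by `σ` (`hlift`) and that the reductions of the `σ`-fixed points are
killed by one exponent `e > 0` (`hexp`: finiteness of the group of rational points over the finite
field).  THEN `J[p]` contains a non-zero joint eigenvector of the `τ i` with eigenvalues `a i`.

No torsion lift of `ybar` is used.  Proof: otherwise some `s ∈ 1 + (p, τ i - a i)` kills `J[p]`
(Nakayama on the finite module `J[p]`); then `s ^ m` kills `J[p ^ m]`, so the points
`s ^ m • (y0 / p ^ m)` are fixed by `σ` (the Kummer ambiguity is killed), their reductions are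
killed by `e`, and `p ^ m` times them reduces to `ybar`: for `p ^ m ∥ e` this forces `ybar = 0`.

* `exists_eigenvector_of_module` : the statement for a commutative ring `S` acting on `J`;
* `exists_eigenvector` : the statement for a family `T i : Module.End ℤ J` which commutes ON THE
  `p`-TORSION ONLY (on main the Hecke operators of `JZero N` are only known to commute on torsion,
  `S15/G/HeckeComm`); the algebra is then run in the left ideal generated by the `T i - a i` in the
  (non-commutative) subring generated by the `T i`, by an elementary descent on stable subgroups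
  of `J[p]` (`exists_leftIdeal_eq_id`).
-/

set_option autoImplicit false
set_option linter.style.haveILetI false

namespace Fermat.Agent.S44.Alg.KummerLift

section Core

variable {S : Type*} [CommRing S] {J B : Type*} [AddCommGroup J] [Module S J] [AddCommGroup B]
variable {I : Type*}

/-- the `p`-torsion as an `S`-submodule -/
def torsP (S : Type*) [CommRing S] (J : Type*) [AddCommGroup J] [Module S J] (p : ℕ) :
    Submodule S J where
  carrier := {y | p • y = 0}
  zero_mem' := smul_zero p
  add_mem' := by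
    intro x y hx hy
    show p • (x + y) = 0
    rw [smul_add, hx, hy, add_zero]
  smul_mem' := by
    intro s x hx
    show p • (s • x) = 0
    rw [smul_comm, hx, smul_zero]

theorem mem_torsP {p : ℕ} {y : J} : y ∈ torsP S J p ↔ p • y = 0 := Iff.rfl

/-- the ideal `(p, τ i - a i)` -/
def eigIdeal (p : ℕ) (τ : I → S) (a : I → ℤ) : Ideal S :=
  Ideal.span (Set.range (fun i => τ i - (a i : S)) ∪ {(p : S)})

theorem sub_mem_eigIdeal (p : ℕ) (τ : I → S) (a : I → ℤ) (i : I) :
    τ i - (a i : S) ∈ eigIdeal p τ a :=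
  Ideal.subset_span (Or.inl ⟨i, rfl⟩)

/-- **the algebra**: either `J[p]` contains a joint eigenvector, or an element of
`1 + (p, τ i - a i)` kills `J[p]` -/
theorem exists_eigenvector_or_kill (p : ℕ) (τ : I → S) (a : I → ℤ)
    (hfin : {y : J | p • y = 0}.Finite) :
    (∃ y : J, y ≠ 0 ∧ p • y = 0 ∧ ∀ i, τ i • y = a i • y) ∨
      ∃ s : S, s - 1 ∈ eigIdeal p τ a ∧ ∀ x : J, p • x = 0 → s • x = 0 := by
  classical
  set X : Submodule S J := torsP S J p with hX
  set 𝔞 : Ideal S := eigIdeal p τ a with h𝔞
  have hXfin : (X : Set J).Finite := hfin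
  -- the chain `𝔞 ^ n • X`
  have hle : ∀ n, 𝔞 ^ n • X ≤ X := fun n => Submodule.smul_le_right
  have hanti : ∀ n, 𝔞 ^ (n + 1) • X ≤ 𝔞 ^ n • X := fun n =>
    Submodule.smul_mono (Ideal.pow_le_pow_right (Nat.le_succ n)) le_rfl
  have hfinn : ∀ n, ((𝔞 ^ n • X : Submodule S J) : Set J).Finite := fun n =>
    hXfin.subset (hle n)
  -- it stabilises
  obtain ⟨n, hn⟩ : ∃ n, 𝔞 ^ (n + 1) • X = 𝔞 ^ n • X := by
    by_contra hcon
    push Not at hcon
    have hlt : ∀ n, ((𝔞 ^ (n + 1) • X : Submodule S J) : Set J).ncard <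
        ((𝔞 ^ n • X : Submodule S J) : Set J).ncard := by
      intro n
      refine Set.ncard_lt_ncard ?_ (hfinn n)
      refine lt_of_le_of_ne (hanti n) ?_
      intro h
      exact hcon n (SetLike.coe_injective h)
    have hbound : ∀ n, ((𝔞 ^ n • X : Submodule S J) : Set J).ncard + n ≤
        ((𝔞 ^ 0 • X : Submodule S J) : Set J).ncard := by
      intro n
      induction n with
      | zero => simp
      | succ n ih =>
        have := hlt n
        omega
    have := hbound (((𝔞 ^ 0 • X : Submodule S J) : Set J).ncard + 1)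
    omega
  -- Nakayama
  have hfg : (𝔞 ^ n • X : Submodule S J).FG := by
    have : Finite ↥(𝔞 ^ n • X : Submodule S J) := (hfinn n).to_subtype
    exact Module.Finite.iff_fg.mp inferInstance
  have hNle : 𝔞 ^ n • X ≤ 𝔞 • (𝔞 ^ n • X) := by
    rw [← Submodule.mul_smul, ← pow_succ', hn]
  obtain ⟨s, hs1, hsN⟩ :=
    Submodule.exists_sub_one_mem_and_smul_eq_zero_of_fg_of_le_smul 𝔞 (𝔞 ^ n • X) hfg hNle
  -- the first layer killed by `s`
  have hex : ∃ j, ∀ w ∈ 𝔞 ^ j • X, s • w = 0 := ⟨n, hsN⟩
  set j0 := Nat.find hex with hj0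
  have hj0spec : ∀ w ∈ 𝔞 ^ j0 • X, s • w = 0 := Nat.find_spec hex
  rcases Nat.eq_zero_or_pos j0 with h0 | hpos
  · -- `s` kills `X`
    right
    refine ⟨s, hs1, fun x hx => ?_⟩
    apply hj0spec
    rw [h0, pow_zero, Ideal.one_eq_top, Submodule.top_smul]
    exact hx
  · -- an eigenvector in the last non-zero layer
    left
    obtain ⟨j', hj'⟩ : ∃ j', j0 = j' + 1 := ⟨j0 - 1, by omega⟩
    have hmin : ¬ ∀ w ∈ 𝔞 ^ j' • X, s • w = 0 := Nat.find_min hex (by omega)
    push Not at hmin
    obtain ⟨w0, hw0, hsw0⟩ := hmin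
    have hw0X : w0 ∈ X := hle j' hw0
    have hkill : ∀ c ∈ 𝔞, c • (s • w0) = 0 := by
      intro c hc
      rw [smul_comm]
      apply hj0spec
      rw [hj', pow_succ', Submodule.mul_smul]
      exact Submodule.smul_mem_smul hc hw0
    refine ⟨s • w0, hsw0, X.smul_mem s hw0X, fun i => ?_⟩
    have h1 := hkill _ (sub_mem_eigIdeal p τ a i)
    rw [sub_smul, sub_eq_zero, Int.cast_smul_eq_zsmul] at h1
    exact h1

/-- **(X5'), module form.** -/
theorem exists_eigenvector_of_module (red : J →+ B) (p : ℕ) (hp : p.Prime) (τ : I → S)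
    (a : I → ℤ) (σ : J →ₗ[S] J)
    (hker : ∀ (s : S) (x : J), red x = 0 → red (s • x) = 0)
    (hdiv : ∀ y : J, ∃ z : J, p • z = y)
    (hfin : {y : J | p • y = 0}.Finite)
    (ybar : B) (hy0 : ybar ≠ 0) (hpy : p • ybar = 0)
    (h2 : ∀ y : J, (∃ c : ℤ, red y = c • ybar) → ∀ i, red (τ i • y - a i • y) = 0)
    (hlift : ∃ y0 : J, red y0 = ybar ∧ σ y0 = y0)
    (hexp : ∃ e : ℕ, 0 < e ∧ ∀ z : J, σ z = z → red (e • z) = 0) :
    ∃ y : J, y ≠ 0 ∧ p • y = 0 ∧ ∀ i, τ i • y = a i • y := by
  rcases exists_eigenvector_or_kill (S := S) (J := J) p τ a hfin with h | ⟨s, hs1, hsX⟩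
  · exact h
  exfalso
  -- elements of the ideal kill the reduction of the good points
  have hred𝔞 : ∀ r ∈ eigIdeal p τ a, ∀ z : J, (∃ c : ℤ, red z = c • ybar) →
      red (r • z) = 0 := by
    intro r hr
    unfold eigIdeal at hr
    induction hr using Submodule.span_induction with
    | mem x hx =>
      intro z hz
      rcases hx with ⟨i, rfl⟩ | hx
      · have := h2 z hz i
        rw [sub_smul, Int.cast_smul_eq_zsmul]
        exact this
      · rw [Set.mem_singleton_iff] at hx
        obtain ⟨c, hc⟩ := hz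
        rw [hx, Nat.cast_smul_eq_nsmul, map_nsmul, hc, smul_comm, hpy, smul_zero]
    | zero =>
      intro z _
      rw [zero_smul, map_zero]
    | add x y _ _ hx hy =>
      intro z hz
      rw [add_smul, map_add, hx z hz, hy z hz, add_zero]
    | smul c x _ hx =>
      intro z hz
      rw [smul_eq_mul, mul_smul]
      exact hker c _ (hx z hz)
  -- `s` acts as the identity on the reduction of the good points
  have hsred : ∀ z : J, (∃ c : ℤ, red z = c • ybar) → red (s • z) = red z := by
    intro z hz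
    have h1 : s • z = (s - 1) • z + z := by rw [sub_smul, one_smul, sub_add_cancel]
    rw [h1, map_add, hred𝔞 _ hs1 z hz, zero_add]
  have hspow : ∀ (m : ℕ) (z : J), (∃ c : ℤ, red z = c • ybar) → red (s ^ m • z) = red z := by
    intro m
    induction m with
    | zero => intro z _; rw [pow_zero, one_smul]
    | succ m ih =>
      intro z hz
      obtain ⟨c, hc⟩ := hz
      rw [pow_succ, mul_smul, ih (s • z) ⟨c, by rw [hsred z ⟨c, hc⟩, hc]⟩, hsred z ⟨c, hc⟩]
  -- `s ^ m` kills `J[p ^ m]`
  have hkill : ∀ (m : ℕ) (d : J), p ^ m • d = 0 → s ^ m • d = 0 := by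
    intro m
    induction m with
    | zero =>
      intro d hd
      rw [pow_zero, one_smul] at hd
      rw [hd, smul_zero]
    | succ m ih =>
      intro d hd
      rw [pow_succ, mul_smul] at hd
      have h1 : s ^ m • (p • d) = 0 := ih _ hd
      have h2' : p • (s ^ m • d) = 0 := by rw [smul_comm]; exact h1
      rw [pow_succ', mul_smul]
      exact hsX _ h2'
  -- divisibility by `p ^ m`
  have hdivm : ∀ (m : ℕ) (y : J), ∃ z : J, p ^ m • z = y := by
    intro m
    induction m with
    | zero => intro y; exact ⟨y, by rw [pow_zero, one_smul]⟩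
    | succ m ih =>
      intro y
      obtain ⟨z, hz⟩ := ih y
      obtain ⟨z', hz'⟩ := hdiv z
      exact ⟨z', by rw [pow_succ, mul_smul, hz', hz]⟩
  obtain ⟨y0, hy0red, hσy0⟩ := hlift
  obtain ⟨e, he, hexp⟩ := hexp
  obtain ⟨b, e', he', hee⟩ := Nat.exists_eq_pow_mul_and_not_dvd he.ne' p hp.ne_one
  obtain ⟨yb, hyb⟩ := hdivm b y0
  -- the Kummer point
  have hfix : σ (s ^ b • yb) = s ^ b • yb := by
    rw [map_smul]
    have hd : p ^ b • (σ yb - yb) = 0 := by
      rw [smul_sub, ← map_nsmul, hyb, hσy0, sub_self]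
    have h1 := hkill b _ hd
    rw [smul_sub, sub_eq_zero] at h1
    exact h1
  have h3 := hexp _ hfix
  have h4 : e • (s ^ b • yb) = e' • (s ^ b • y0) := by
    rw [hee, mul_comm, mul_smul, smul_comm (p ^ b) (s ^ b) yb, hyb]
  rw [h4, map_nsmul, hspow b y0 ⟨1, by rw [hy0red, one_smul]⟩, hy0red] at h3
  -- `e' ybar = 0 = p ybar`, `p ∤ e'`
  have h5 : addOrderOf ybar ∣ e' := addOrderOf_dvd_of_nsmul_eq_zero h3
  have h6 : addOrderOf ybar ∣ p := addOrderOf_dvd_of_nsmul_eq_zero hpy
  have hcop : Nat.Coprime p e' := (Nat.Prime.coprime_iff_not_dvd hp).mpr he'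
  have h7 : addOrderOf ybar ∣ 1 := by
    have := Nat.dvd_gcd h6 h5
    rwa [hcop] at this
  have h8 : addOrderOf ybar = 1 := Nat.dvd_one.mp h7
  exact hy0 (AddMonoid.addOrderOf_eq_one_iff.mp h8)

end Core

section Family

variable {J B : Type*} [AddCommGroup J] [AddCommGroup B] {I : Type*}

/-- `N i = T i - a i` -/
def nOp (T : I → Module.End ℤ J) (a : I → ℤ) (i : I) : Module.End ℤ J :=
  T i - a i • (1 : Module.End ℤ J)

theorem nOp_apply (T : I → Module.End ℤ J) (a : I → ℤ) (i : I) (y : J) :
    nOp T a i y = T i y - a i • y := by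
  simp [nOp]

/-- the subring generated by the `T i` -/
def hk (T : I → Module.End ℤ J) : Subring (Module.End ℤ J) := Subring.closure (Set.range T)

/-- the left ideal of `hk T` generated by the `N i` -/
def leftIdeal (T : I → Module.End ℤ J) (a : I → ℤ) : Submodule ↥(hk T) (Module.End ℤ J) :=
  Submodule.span ↥(hk T) (Set.range (nOp T a))

theorem T_mem_hk (T : I → Module.End ℤ J) (i : I) : T i ∈ hk T :=
  Subring.subset_closure ⟨i, rfl⟩

theorem nOp_mem_hk (T : I → Module.End ℤ J) (a : I → ℤ) (i : I) : nOp T a i ∈ hk T :=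
  (hk T).sub_mem (T_mem_hk T i) ((hk T).zsmul_mem (hk T).one_mem _)

theorem leftIdeal_le_hk (T : I → Module.End ℤ J) (a : I → ℤ) {u : Module.End ℤ J}
    (hu : u ∈ leftIdeal T a) : u ∈ hk T := by
  unfold leftIdeal at hu
  induction hu using Submodule.span_induction with
  | mem x hx =>
    obtain ⟨i, rfl⟩ := hx
    exact nOp_mem_hk T a i
  | zero => exact (hk T).zero_mem
  | add x y _ _ hx hy => exact (hk T).add_mem hx hy
  | smul c x _ hx => exact (hk T).mul_mem c.2 hx

/-- left multiples stay in the left ideal -/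
theorem mul_mem_leftIdeal (T : I → Module.End ℤ J) (a : I → ℤ) {c u : Module.End ℤ J}
    (hc : c ∈ hk T) (hu : u ∈ leftIdeal T a) : c * u ∈ leftIdeal T a :=
  (leftIdeal T a).smul_mem ⟨c, hc⟩ hu

/-- the elements of `hk T` preserve every `T`-stable subgroup -/
theorem hk_stable (T : I → Module.End ℤ J) (Y : AddSubgroup J)
    (hY : ∀ i, ∀ y ∈ Y, T i y ∈ Y) {c : Module.End ℤ J} (hc : c ∈ hk T) :
    ∀ y ∈ Y, c y ∈ Y := by
  unfold hk at hc
  induction hc using Subring.closure_induction with
  | mem c hc =>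
    obtain ⟨i, rfl⟩ := hc
    exact hY i
  | zero => intro y _; simp
  | one => intro y hy; simpa using hy
  | add c d _ _ hc hd => intro y hy; simpa using Y.add_mem (hc y hy) (hd y hy)
  | neg c _ hc => intro y hy; simpa using Y.neg_mem (hc y hy)
  | mul c d _ _ hc hd => intro y hy; simpa [Module.End.mul_apply] using hc _ (hd y hy)

/-- the elements of `hk T` commute with the `T i` on a stable subgroup on which the `T i`
commute -/
theorem hk_comm (T : I → Module.End ℤ J) (Y : AddSubgroup J)
    (hY : ∀ i, ∀ y ∈ Y, T i y ∈ Y)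
    (hcomm : ∀ i j, ∀ y ∈ Y, T i (T j y) = T j (T i y)) {c : Module.End ℤ J} (hc : c ∈ hk T) :
    ∀ i, ∀ y ∈ Y, c (T i y) = T i (c y) := by
  unfold hk at hc
  induction hc using Subring.closure_induction with
  | mem c hc =>
    obtain ⟨j, rfl⟩ := hc
    intro i y hy
    exact hcomm j i y hy
  | zero => intro i y _; simp
  | one => intro i y _; simp
  | add c d _ _ hc hd => intro i y hy; simp [hc i y hy, hd i y hy]
  | neg c _ hc => intro i y hy; simp [hc i y hy]
  | mul c d hcm hdm hc hd =>
    intro i y hy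
    have hdy : d y ∈ Y := hk_stable T Y hY hdm y hy
    rw [Module.End.mul_apply, Module.End.mul_apply, hd i y hy, hc i (d y) hdy]

/-- the elements of `hk T` commute with the `N i` on such a subgroup -/
theorem hk_comm_nOp (T : I → Module.End ℤ J) (a : I → ℤ) (Y : AddSubgroup J)
    (hY : ∀ i, ∀ y ∈ Y, T i y ∈ Y)
    (hcomm : ∀ i j, ∀ y ∈ Y, T i (T j y) = T j (T i y)) {c : Module.End ℤ J} (hc : c ∈ hk T)
    (i : I) (y : J) (hy : y ∈ Y) : c (nOp T a i y) = nOp T a i (c y) := by
  rw [nOp_apply, nOp_apply, map_sub, map_zsmul, hk_comm T Y hY hcomm hc i y hy]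

/-- `N i` maps a stable subgroup to itself -/
theorem nOp_mem (T : I → Module.End ℤ J) (a : I → ℤ) (Y : AddSubgroup J)
    (hY : ∀ i, ∀ y ∈ Y, T i y ∈ Y) (i : I) (y : J) (hy : y ∈ Y) : nOp T a i y ∈ Y := by
  rw [nOp_apply]
  exact Y.sub_mem (hY i y hy) (Y.zsmul_mem hy _)

/-- **the algebra, without ring theory** (helper10's descent): on a finite `T`-stable subgroup
on which the `T i` commute and which contains no common kernel vector of the `N i`, some element
of the left ideal acts as the identity -/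
theorem exists_leftIdeal_eq_id (T : I → Module.End ℤ J) (a : I → ℤ) :
    ∀ (n : ℕ) (Y : AddSubgroup J), (Y : Set J).Finite → (Y : Set J).ncard ≤ n →
      (∀ i, ∀ y ∈ Y, T i y ∈ Y) → (∀ i j, ∀ y ∈ Y, T i (T j y) = T j (T i y)) →
      (∀ y ∈ Y, (∀ i, nOp T a i y = 0) → y = 0) →
      ∃ u ∈ leftIdeal T a, ∀ y ∈ Y, u y = y := by
  classical
  intro n
  induction n with
  | zero =>
    intro Y hfin hcard _ _ _
    exfalso
    have h0 : (0 : J) ∈ (Y : Set J) := Y.zero_mem
    have := (Set.ncard_pos hfin).mpr ⟨0, h0⟩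
    omega
  | succ n ih =>
    intro Y hfin hcard hY hcomm hno
    by_cases hbot : ∀ y ∈ Y, y = 0
    · exact ⟨0, (leftIdeal T a).zero_mem, fun y hy => by rw [hbot y hy]; simp⟩
    push Not at hbot
    obtain ⟨y0, hy0Y, hy0⟩ := hbot
    have hex : ∃ i, nOp T a i y0 ≠ 0 := by
      by_contra hcon
      push Not at hcon
      exact hy0 (hno y0 hy0Y hcon)
    obtain ⟨i1, hi1⟩ := hex
    set N1 := nOp T a i1 with hN1
    have hN1Y : ∀ y ∈ Y, N1 y ∈ Y := fun y hy => nOp_mem T a Y hY i1 y hy
    -- the kernel of `N1` in `Y`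
    let Y1 : AddSubgroup J :=
      { carrier := {y | y ∈ Y ∧ N1 y = 0}
        zero_mem' := ⟨Y.zero_mem, map_zero _⟩
        add_mem' := fun {x y} hx hy => ⟨Y.add_mem hx.1 hy.1, by rw [map_add, hx.2, hy.2, add_zero]⟩
        neg_mem' := fun {x} hx => ⟨Y.neg_mem hx.1, by rw [map_neg, hx.2, neg_zero]⟩ }
    have hY1le : (Y1 : Set J) ⊆ Y := fun y hy => hy.1
    have hY1ss : (Y1 : Set J) ⊂ Y := by
      refine ⟨hY1le, fun h => ?_⟩
      exact hi1 (h hy0Y).2
    have hY1card : (Y1 : Set J).ncard ≤ n := by
      have := Set.ncard_lt_ncard hY1ss hfin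
      omega
    have hY1stab : ∀ i, ∀ y ∈ Y1, T i y ∈ Y1 := by
      intro i y hy
      refine ⟨hY i y hy.1, ?_⟩
      have := hk_comm_nOp T a Y hY hcomm (T_mem_hk T i) i1 y hy.1
      rw [← this, hy.2, map_zero]
    by_cases hY1bot : ∀ y ∈ Y1, y = 0
    · -- `N1` is injective on `Y`: a power of it is the identity on `Y`
      let f : ↥Y → ↥Y := fun y => ⟨N1 y, hN1Y y y.2⟩
      have hfinj : Function.Injective f := by
        intro x y hxy
        have h1 : N1 (x : J) = N1 (y : J) := congrArg Subtype.val hxy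
        have h2 : ((x : J) - (y : J)) ∈ Y1 := ⟨Y.sub_mem x.2 y.2, by rw [map_sub, h1, sub_self]⟩
        exact Subtype.ext (sub_eq_zero.mp (hY1bot _ h2))
      haveI : Finite ↥Y := hfin.to_subtype
      have hnotinj : ¬ Function.Injective (fun k : ℕ => f^[k]) := not_injective_infinite_finite _
      rw [Function.Injective] at hnotinj
      push Not at hnotinj
      obtain ⟨k1, k2, hk12, hkne⟩ := hnotinj
      -- wlog `k1 < k2`
      have key : ∀ k1 k2 : ℕ, k1 < k2 → f^[k1] = f^[k2] →
          ∃ u ∈ leftIdeal T a, ∀ y ∈ Y, u y = y := by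
        intro k1 k2 hlt heq
        obtain ⟨d, hd⟩ : ∃ d, k2 = k1 + (d + 1) := ⟨k2 - k1 - 1, by omega⟩
        have hfd : ∀ y : ↥Y, f^[d + 1] y = y := by
          intro y
          apply hfinj.iterate k1
          rw [← Function.iterate_add_apply, ← hd, ← heq]
        have hpow : ∀ (k : ℕ) (y : ↥Y), ((N1 ^ k) (y : J)) = ((f^[k] y : ↥Y) : J) := by
          intro k
          induction k with
          | zero => intro y; simp
          | succ k ih =>
            intro y
            rw [pow_succ, Module.End.mul_apply, Function.iterate_succ_apply]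
            exact ih (f y)
        refine ⟨N1 ^ (d + 1), ?_, fun y hy => ?_⟩
        · rw [pow_succ]
          exact mul_mem_leftIdeal T a ((hk T).pow_mem (nOp_mem_hk T a i1) d)
            (Submodule.subset_span ⟨i1, rfl⟩)
        · have := hpow (d + 1) ⟨y, hy⟩
          rw [hfd] at this
          exact this
      rcases lt_or_gt_of_ne hkne with h | h
      · exact key k1 k2 h hk12
      · exact key k2 k1 h hk12.symm
    · -- the image of `N1`
      push Not at hY1bot
      obtain ⟨y1, hy1, hy1ne⟩ := hY1bot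
      let Y2 : AddSubgroup J := Y.map (N1 : J →ₗ[ℤ] J).toAddMonoidHom
      have hY2mem : ∀ y, y ∈ Y2 ↔ ∃ x ∈ Y, N1 x = y := fun y => AddSubgroup.mem_map
      have hY2le : (Y2 : Set J) ⊆ Y := by
        intro y hy
        obtain ⟨x, hx, rfl⟩ := (hY2mem y).mp hy
        exact hN1Y x hx
      have hY2ss : (Y2 : Set J) ⊂ Y := by
        refine ⟨hY2le, fun h => ?_⟩
        -- `N1 : Y → Y` would be surjective, hence injective
        let f : ↥Y → ↥Y := fun y => ⟨N1 y, hN1Y y y.2⟩
        haveI : Finite ↥Y := hfin.to_subtype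
        have hsurj : Function.Surjective f := by
          intro y
          obtain ⟨x, hx, hxy⟩ := (hY2mem y).mp (h y.2)
          exact ⟨⟨x, hx⟩, Subtype.ext hxy⟩
        have hinj := Finite.injective_iff_surjective.mpr hsurj
        have h1 : f ⟨y1, hy1.1⟩ = f ⟨0, Y.zero_mem⟩ := by
          apply Subtype.ext
          show N1 y1 = N1 0
          rw [hy1.2, map_zero]
        have h2 := congrArg Subtype.val (hinj h1)
        exact hy1ne h2
      have hY2card : (Y2 : Set J).ncard ≤ n := by
        have := Set.ncard_lt_ncard hY2ss hfin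
        omega
      have hY2stab : ∀ i, ∀ y ∈ Y2, T i y ∈ Y2 := by
        intro i y hy
        obtain ⟨x, hx, rfl⟩ := (hY2mem y).mp hy
        refine (hY2mem _).mpr ⟨T i x, hY i x hx, ?_⟩
        exact (hk_comm_nOp T a Y hY hcomm (T_mem_hk T i) i1 x hx).symm
      obtain ⟨u1, hu1, hu1id⟩ := ih Y1 (hfin.subset hY1le) hY1card hY1stab
        (fun i j y hy => hcomm i j y hy.1) (fun y hy h => hno y hy.1 h)
      obtain ⟨u2, hu2, hu2id⟩ := ih Y2 (hfin.subset hY2le) hY2card hY2stab
        (fun i j y hy => hcomm i j y (hY2le hy)) (fun y hy h => hno y (hY2le hy) h)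
      have hu1C := leftIdeal_le_hk T a hu1
      have hu2C := leftIdeal_le_hk T a hu2
      refine ⟨u1 + u2 - u1 * u2, ?_, fun y hy => ?_⟩
      · exact (leftIdeal T a).sub_mem ((leftIdeal T a).add_mem hu1 hu2)
          (mul_mem_leftIdeal T a hu1C hu2)
      · have hu2y : u2 y ∈ Y := hk_stable T Y hY hu2C y hy
        have hw : y - u2 y ∈ Y1 := by
          refine ⟨Y.sub_mem hy hu2y, ?_⟩
          rw [map_sub, ← hk_comm_nOp T a Y hY hcomm hu2C i1 y hy,
            hu2id _ ((hY2mem _).mpr ⟨y, hy, rfl⟩), sub_self]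
        have h1 := hu1id _ hw
        rw [map_sub] at h1
        simp only [LinearMap.sub_apply, LinearMap.add_apply, Module.End.mul_apply]
        rw [show u1 y + u2 y - u1 (u2 y) = (u1 y - u1 (u2 y)) + u2 y by abel, h1]
        abel

/-- **(X5'), family form.**  `T i` endomorphisms of `J` which commute with the additive map `σ`,
preserve `ker red`, and commute with each other ON THE `p`-TORSION (on main the commutativity of
the Hecke operators of `JZero N` is only known on torsion). -/
theorem exists_eigenvector (red : J →+ B) (p : ℕ) (hp : p.Prime) (T : I → Module.End ℤ J)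
    (a : I → ℤ) (σ : J →+ J)
    (hcomm : ∀ i j (x : J), p • x = 0 → T i (T j x) = T j (T i x))
    (hσT : ∀ i x, T i (σ x) = σ (T i x))
    (hker : ∀ i x, red x = 0 → red (T i x) = 0)
    (hdiv : ∀ y : J, ∃ z : J, p • z = y)
    (hfin : {y : J | p • y = 0}.Finite)
    (ybar : B) (hy0 : ybar ≠ 0) (hpy : p • ybar = 0)
    (h2 : ∀ y : J, red y = ybar → ∀ i, red (T i y - a i • y) = 0)
    (hlift : ∃ y0 : J, red y0 = ybar ∧ σ y0 = y0)
    (hexp : ∃ e : ℕ, 0 < e ∧ ∀ z : J, σ z = z → red (e • z) = 0) :
    ∃ y : J, y ≠ 0 ∧ p • y = 0 ∧ ∀ i, T i y = a i • y := by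
  classical
  by_contra hnone
  push Not at hnone
  -- the `p`-torsion
  let X : AddSubgroup J :=
    { carrier := {y | p • y = 0}
      zero_mem' := smul_zero p
      add_mem' := fun {x y} hx hy => by
        show p • (x + y) = 0
        rw [smul_add, hx, hy, add_zero]
      neg_mem' := fun {x} hx => by
        show p • (-x) = 0
        rw [smul_neg, hx, neg_zero] }
  have hXmem : ∀ y, y ∈ X ↔ p • y = 0 := fun y => Iff.rfl
  have hXstab : ∀ i, ∀ y ∈ X, T i y ∈ X := by
    intro i y hy
    show p • T i y = 0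
    rw [← map_nsmul, (hXmem y).mp hy, map_zero]
  have hXno : ∀ y ∈ X, (∀ i, nOp T a i y = 0) → y = 0 := by
    intro y hy h
    by_contra hne
    obtain ⟨i, hi⟩ := hnone y hne hy
    apply hi
    have := h i
    rw [nOp_apply, sub_eq_zero] at this
    exact this
  obtain ⟨u, hu, huid⟩ := exists_leftIdeal_eq_id T a _ X hfin le_rfl hXstab
    (fun i j y hy => hcomm i j y hy) hXno
  have huC := leftIdeal_le_hk T a hu
  -- properties of `hk T`
  have hσC : ∀ c ∈ hk T, ∀ x, c (σ x) = σ (c x) := by
    intro c hc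
    unfold hk at hc
    induction hc using Subring.closure_induction with
    | mem c hc =>
      obtain ⟨i, rfl⟩ := hc
      exact hσT i
    | zero => intro x; simp
    | one => intro x; simp
    | add c d _ _ hc hd => intro x; simp [hc x, hd x]
    | neg c _ hc => intro x; simp [hc x]
    | mul c d _ _ hc hd => intro x; simp [Module.End.mul_apply, hd x, hc]
  have hkerC : ∀ c ∈ hk T, ∀ x, red x = 0 → red (c x) = 0 := by
    intro c hc
    unfold hk at hc
    induction hc using Subring.closure_induction with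
    | mem c hc =>
      obtain ⟨i, rfl⟩ := hc
      exact hker i
    | zero => intro x _; simp
    | one => intro x hx; simpa using hx
    | add c d _ _ hc hd => intro x hx; simp [hc x hx, hd x hx]
    | neg c _ hc => intro x hx; simp [hc x hx]
    | mul c d _ _ hc hd => intro x hx; simpa [Module.End.mul_apply] using hc _ (hd x hx)
  -- the left ideal kills the reduction of the good points
  have hredL : ∀ v ∈ leftIdeal T a, ∀ z : J, red z = ybar → red (v z) = 0 := by
    intro v hv
    unfold leftIdeal at hv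
    induction hv using Submodule.span_induction with
    | mem x hx =>
      obtain ⟨i, rfl⟩ := hx
      intro z hz
      rw [nOp_apply]
      exact h2 z hz i
    | zero => intro z _; simp
    | add x y _ _ hx hy => intro z hz; simp [hx z hz, hy z hz]
    | smul c x _ hx =>
      intro z hz
      show red (((c : Module.End ℤ J) * x) z) = 0
      rw [Module.End.mul_apply]
      exact hkerC c c.2 _ (hx z hz)
  -- `t = 1 - u`
  set t : Module.End ℤ J := 1 - u with ht
  have htC : t ∈ hk T := (hk T).sub_mem (hk T).one_mem huC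
  have htX : ∀ x : J, p • x = 0 → t x = 0 := by
    intro x hx
    simp only [ht, LinearMap.sub_apply, Module.End.one_apply]
    rw [huid x hx, sub_self]
  have htred : ∀ z : J, red z = ybar → red (t z) = ybar := by
    intro z hz
    simp only [ht, LinearMap.sub_apply, Module.End.one_apply]
    rw [map_sub, hredL u hu z hz, sub_zero, hz]
  have htpow : ∀ (m : ℕ) (z : J), red z = ybar → red ((t ^ m) z) = ybar := by
    intro m
    induction m with
    | zero => intro z hz; simpa using hz
    | succ m ih =>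
      intro z hz
      rw [pow_succ, Module.End.mul_apply]
      exact ih (t z) (htred z hz)
  have hkill : ∀ (m : ℕ) (d : J), p ^ m • d = 0 → (t ^ m) d = 0 := by
    intro m
    induction m with
    | zero =>
      intro d hd
      rw [pow_zero, one_smul] at hd
      rw [hd, map_zero]
    | succ m ih =>
      intro d hd
      rw [pow_succ, mul_smul] at hd
      have h1 : (t ^ m) (p • d) = 0 := ih _ hd
      have h2' : p • ((t ^ m) d) = 0 := by rw [← map_nsmul]; exact h1
      rw [pow_succ', Module.End.mul_apply]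
      exact htX _ h2'
  have hdivm : ∀ (m : ℕ) (y : J), ∃ z : J, p ^ m • z = y := by
    intro m
    induction m with
    | zero => intro y; exact ⟨y, by rw [pow_zero, one_smul]⟩
    | succ m ih =>
      intro y
      obtain ⟨z, hz⟩ := ih y
      obtain ⟨z', hz'⟩ := hdiv z
      exact ⟨z', by rw [pow_succ, mul_smul, hz', hz]⟩
  obtain ⟨y0, hy0red, hσy0⟩ := hlift
  obtain ⟨e, he, hexp⟩ := hexp
  obtain ⟨b, e', he', hee⟩ := Nat.exists_eq_pow_mul_and_not_dvd he.ne' p hp.ne_one
  obtain ⟨yb, hyb⟩ := hdivm b y0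
  have htbC : t ^ b ∈ hk T := (hk T).pow_mem htC b
  have hfix : σ ((t ^ b) yb) = (t ^ b) yb := by
    rw [← hσC _ htbC]
    have hd : p ^ b • (σ yb - yb) = 0 := by
      rw [smul_sub, ← map_nsmul, hyb, hσy0, sub_self]
    have h1 := hkill b _ hd
    rw [map_sub, sub_eq_zero] at h1
    exact h1
  have h3 := hexp _ hfix
  have h4 : e • ((t ^ b) yb) = e' • ((t ^ b) y0) := by
    rw [hee, mul_comm, mul_smul, ← map_nsmul (t ^ b) (p ^ b) yb, hyb]
  rw [h4, map_nsmul, htpow b y0 hy0red] at h3
  have h5 : addOrderOf ybar ∣ e' := addOrderOf_dvd_of_nsmul_eq_zero h3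
  have h6 : addOrderOf ybar ∣ p := addOrderOf_dvd_of_nsmul_eq_zero hpy
  have hcop : Nat.Coprime p e' := (Nat.Prime.coprime_iff_not_dvd hp).mpr he'
  have h7 : addOrderOf ybar ∣ 1 := by
    have := Nat.dvd_gcd h6 h5
    rwa [hcop] at this
  have h8 : addOrderOf ybar = 1 := Nat.dvd_one.mp h7
  exact hy0 (AddMonoid.addOrderOf_eq_one_iff.mp h8)

end Family

end Fermat.Agent.S44.Alg.KummerLift
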